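import Mathlib.NumberTheory.LegendreSymbol.JacobiSymbol
import Mathlib.Tactic

/-!
# `p = 2 z² - a²` and `p = x² + 8 C²`

For a prime `p ≡ 1 (mod 8)` both representations exist by Thue's lemma, and `(z / p) = 1` iff
`z ≡ 1 (mod 4)` iff `C` is even: the product `a z x (2 C)` is a square modulo `p`, and
`(a / p) = (2 / a)`, `(x / p) = (2 / x)`.
-/

set_option autoImplicit false
set_option linter.style.haveILetI false

noncomputable section

open scoped Classical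

namespace FA.ClassEight

variable {p : ℕ} [hp : Fact p.Prime]

theorem sqrt_sq_lt : (Nat.sqrt p) ^ 2 < p := by
  refine lt_of_le_of_ne (Nat.sqrt_le' p) fun h => ?_
  have h2 := hp.out
  rw [← h, pow_two] at h2
  rcases Nat.eq_zero_or_pos (Nat.sqrt p) with h0 | h0
  · rw [h0] at h2
    exact Nat.not_prime_zero h2
  · rcases (Nat.dvd_prime h2).mp (dvd_mul_right (Nat.sqrt p) _) with h1 | h1
    · rw [h1] at h2
      exact Nat.not_prime_one h2
    · nlinarith [h2.two_le]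

/-- Thue's lemma. -/
theorem exists_small (r : ZMod p) :
    ∃ x y : ℤ, (x ≠ 0 ∨ y ≠ 0) ∧ x ^ 2 < p ∧ y ^ 2 < p ∧ (x : ZMod p) = r * (y : ZMod p) := by
  set m := Nat.sqrt p with hm
  obtain ⟨a, b, hne, he⟩ := Fintype.exists_ne_map_eq_of_card_lt
    (fun t : Fin (m + 1) × Fin (m + 1) => ((t.1 : ℕ) : ZMod p) - r * ((t.2 : ℕ) : ZMod p)) (by
      rw [ZMod.card, Fintype.card_prod, Fintype.card_fin]
      exact Nat.lt_succ_sqrt p)
  have hsq : ∀ u v : Fin (m + 1), (((u : ℕ) : ℤ) - (v : ℕ)) ^ 2 < p := fun u v => by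
    have h1 : (m : ℤ) ^ 2 < p := by exact_mod_cast sqrt_sq_lt (p := p)
    have hu : ((u : ℕ) : ℤ) ≤ m := by have := u.2; omega
    have hv : ((v : ℕ) : ℤ) ≤ m := by have := v.2; omega
    nlinarith [Int.natCast_nonneg (u : ℕ), Int.natCast_nonneg (v : ℕ)]
  refine ⟨((a.1 : ℕ) : ℤ) - (b.1 : ℕ), ((a.2 : ℕ) : ℤ) - (b.2 : ℕ), ?_, hsq _ _, hsq _ _, ?_⟩
  · by_contra h
    push Not at h
    exact hne (Prod.ext (Fin.ext (by omega)) (Fin.ext (by omega)))
  · push_cast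
    linear_combination he

theorem isSquare_two (h8 : p % 8 = 1) : IsSquare (2 : ZMod p) :=
  (ZMod.exists_sq_eq_two_iff (by omega)).mpr (Or.inl h8)

/-- `p = 2 z² - a²`. -/
theorem exists_rep_pell (h8 : p % 8 = 1) :
    ∃ a : ℤ, ∃ z : ℕ, 0 < z ∧ (p : ℤ) = 2 * (z : ℤ) ^ 2 - a ^ 2 := by
  obtain ⟨r, hr⟩ := isSquare_two h8
  obtain ⟨x, y, hne, hx, hy, hxy⟩ := exists_small r
  have hd : (p : ℤ) ∣ x ^ 2 - 2 * y ^ 2 := (ZMod.intCast_zmod_eq_zero_iff_dvd _ p).mp (by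
    push_cast
    rw [hxy, hr]
    ring)
  obtain ⟨c, hc⟩ := hd
  have hp0 : (0 : ℤ) < p := Int.natCast_pos.mpr hp.out.pos
  have h1 : c < 1 := by nlinarith [sq_nonneg y]
  have h2 : -2 < c := by nlinarith [sq_nonneg x]
  have hc0 : c ≠ 0 := fun e => by
    rw [e, mul_zero, sub_eq_zero] at hc
    rcases eq_or_ne y 0 with rfl | hy0
    · rcases hne with h | h
      · exact h (by nlinarith)
      · exact h rfl
    · have hQ : ((x : ℚ) / y) ^ 2 = 2 := by
        rw [div_pow, div_eq_iff (pow_ne_zero 2 (Int.cast_ne_zero.mpr hy0))]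
        exact_mod_cast hc
      have hsq : IsSquare (2 : ℚ) := ⟨(x : ℚ) / y, by rw [← hQ]; ring⟩
      rw [Rat.isSquare_ofNat_iff] at hsq
      obtain ⟨w, hw⟩ := hsq
      rcases (show w = 0 ∨ w = 1 ∨ 2 ≤ w by omega) with rfl | rfl | h
      · omega
      · omega
      · nlinarith
  obtain rfl : c = -1 := by omega
  have hy0 : y ≠ 0 := fun e => by
    rw [e] at hc
    nlinarith [sq_nonneg x]
  exact ⟨x, y.natAbs, Int.natAbs_pos.mpr hy0, by rw [Int.natAbs_sq]; linarith⟩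

/-- `p = x² + 8 C²`. -/
theorem exists_rep_eight (h8 : p % 8 = 1) : ∃ x C : ℤ, (p : ℤ) = x ^ 2 + 8 * C ^ 2 := by
  have hsq : IsSquare (-2 : ZMod p) :=
    (ZMod.exists_sq_eq_neg_two_iff (by omega)).mpr (Or.inl h8)
  obtain ⟨r, hr⟩ := hsq
  obtain ⟨x, y, hne, hx, hy, hxy⟩ := exists_small r
  have hd : (p : ℤ) ∣ x ^ 2 + 2 * y ^ 2 := (ZMod.intCast_zmod_eq_zero_iff_dvd _ p).mp (by
    push_cast
    rw [hxy, show (2 : ZMod p) = -(r * r) by rw [← hr]; ring]
    ring)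
  obtain ⟨c, hc⟩ := hd
  have hp0 : (0 : ℤ) < p := Int.natCast_pos.mpr hp.out.pos
  have h1 : 0 < c := by
    by_contra h
    push Not at h
    have h3 : x ^ 2 + 2 * y ^ 2 = 0 :=
      le_antisymm (by rw [hc]; exact mul_nonpos_of_nonneg_of_nonpos hp0.le h)
        (by positivity)
    have hx0 : x = 0 := by nlinarith [sq_nonneg y]
    have hy0 : y = 0 := by nlinarith [sq_nonneg x]
    exact hne.elim (fun g => g hx0) (fun g => g hy0)
  have h2 : c < 3 := by nlinarith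
  obtain ⟨u, v, huv⟩ : ∃ u v : ℤ, (p : ℤ) = u ^ 2 + 2 * v ^ 2 := by
    obtain rfl | rfl : c = 1 ∨ c = 2 := by omega
    · exact ⟨x, y, by linarith⟩
    · obtain ⟨x', rfl⟩ : (2 : ℤ) ∣ x :=
        Int.prime_two.dvd_of_dvd_pow (n := 2) ⟨p - y ^ 2, by linarith⟩
      exact ⟨y, x', by linarith⟩
  obtain ⟨C, rfl⟩ : (2 : ℤ) ∣ v := by
    rcases Int.even_or_odd v with h | ⟨w, rfl⟩
    · exact h.two_dvd
    · exfalso
      obtain ⟨k, rfl | rfl⟩ := Int.even_or_odd' u <;> ring_nf at huv <;> omega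
  exact ⟨u, C, by linarith⟩

/-- `(2 / n) = 1` exactly when `n² ≡ 1 (mod 16)`. -/
theorem jacobi_two_eq_one_iff {n : ℕ} (hn : Odd n) : jacobiSym 2 n = 1 ↔ n ^ 2 % 16 = 1 := by
  rw [jacobiSym.at_two hn, ZMod.χ₈_nat_eq_if_mod_eight, Nat.pow_mod,
    if_neg (by rw [Nat.odd_iff.mp hn]; norm_num)]
  have h := Nat.odd_iff.mp hn
  have h16 : n % 16 < 16 := Nat.mod_lt _ (by norm_num)
  have hm : n % 8 = n % 16 % 8 := by omega
  rw [hm]
  have ho : n % 16 % 2 = 1 := by omega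
  interval_cases (n % 16) <;> simp_all

theorem jacobi_pow_two_eq {y : ℕ} (hy : ¬ p ∣ y) : jacobiSym ((y : ℤ) ^ 2) p = 1 :=
  jacobiSym.sq_one' (by
    rw [Int.gcd_natCast_natCast]
    exact Nat.coprime_comm.mp (hp.out.coprime_iff_not_dvd.mpr hy))

/-- Facts about `p = 2 z² - a²`. -/
theorem rep_pell_facts (h8 : p % 8 = 1) {a : ℤ} {z : ℕ} (hz : 0 < z)
    (h : (p : ℤ) = 2 * (z : ℤ) ^ 2 - a ^ 2) :
    Odd a.natAbs ∧ Odd z ∧ a.natAbs.Coprime z ∧ ¬ p ∣ z ∧ ¬ p ∣ a.natAbs := by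
  have hn : p + a.natAbs ^ 2 = 2 * z ^ 2 := by
    zify
    rw [sq_abs]
    linarith
  have hA : a.natAbs % 2 = 1 := by
    have h1 : (p + a.natAbs ^ 2) % 2 = 0 := by rw [hn]; omega
    rw [Nat.add_mod, Nat.pow_mod] at h1
    rcases Nat.mod_two_eq_zero_or_one a.natAbs with e | e
    · rw [e] at h1; omega
    · exact e
  have hco : a.natAbs.Coprime z := Nat.coprime_of_dvd' fun q hq hqa hqz => by
    have hd : q * q ∣ p + a.natAbs ^ 2 := by
      rw [hn, pow_two]; exact dvd_mul_of_dvd_right (mul_dvd_mul hqz hqz) 2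
    have : q * q ∣ p := (Nat.dvd_add_left (by rw [pow_two]; exact mul_dvd_mul hqa hqa)).mp hd
    rcases (Nat.dvd_prime hp.out).mp this with e | e
    · exact absurd (Nat.eq_one_of_mul_eq_one_right e) hq.ne_one
    · exact absurd (e ▸ hp.out) (Nat.not_prime_mul hq.ne_one hq.ne_one)
  have hZ : z % 2 = 1 := by
    by_contra e
    obtain ⟨w, rfl⟩ : 2 ∣ z := by omega
    obtain ⟨b, hb⟩ : ∃ b, a.natAbs = 2 * b + 1 := ⟨a.natAbs / 2, by omega⟩
    rw [hb] at hn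
    ring_nf at hn
    omega
  have hpz : ¬ p ∣ z := fun hd => by
    have h1 : p ∣ a.natAbs ^ 2 := (Nat.dvd_add_right (dvd_refl p)).mp
      (hn ▸ dvd_mul_of_dvd_right (dvd_pow hd two_ne_zero) 2)
    exact hp.out.ne_one (Nat.eq_one_of_dvd_coprimes hco (hp.out.dvd_of_dvd_pow h1) hd)
  refine ⟨Nat.odd_iff.mpr hA, Nat.odd_iff.mpr hZ, hco, hpz, fun hd => ?_⟩
  have h1 : p ∣ 2 * z ^ 2 := hn ▸ dvd_add dvd_rfl (dvd_pow hd two_ne_zero)
  rcases hp.out.dvd_mul.mp h1 with e | e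
  · have := Nat.le_of_dvd two_pos e
    have := hp.out.two_le
    omega
  · exact hpz (hp.out.dvd_of_dvd_pow e)

/-- `(z / p) = 1` exactly when `z ≡ 1 (mod 4)`. -/
theorem jacobi_z (h8 : p % 8 = 1) {a : ℤ} {z : ℕ} (hz : 0 < z)
    (h : (p : ℤ) = 2 * (z : ℤ) ^ 2 - a ^ 2) : jacobiSym z p = 1 ↔ z % 4 = 1 := by
  obtain ⟨-, hzo, hco, -, -⟩ := rep_pell_facts h8 hz h
  rw [jacobiSym.quadratic_reciprocity_one_mod_four' hzo (by omega),
    jacobiSym.mod_left' (a₂ := -(a ^ 2))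
      (Int.emod_eq_emod_iff_emod_sub_eq_zero.mpr (Int.emod_eq_zero_of_dvd (by
        rw [h, show 2 * (z : ℤ) ^ 2 - a ^ 2 - -(a ^ 2) = (z : ℤ) * (2 * z) by ring]
        exact dvd_mul_right _ _))),
    jacobiSym.neg _ hzo, jacobiSym.sq_one' (by simpa [Int.gcd, Int.natAbs_natCast] using hco),
    mul_one]
  rcases (show z % 4 = 1 ∨ z % 4 = 3 by have := Nat.odd_iff.mp hzo; omega) with e | e
  · rw [ZMod.χ₄_nat_one_mod_four e]; simp [e]
  · rw [ZMod.χ₄_nat_three_mod_four e]; simp [e]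

/-- `(n / p) = 1` for the odd part of `C`. -/
theorem jacobi_part (h8 : p % 8 = 1) {x C : ℤ} (h : (p : ℤ) = x ^ 2 + 8 * C ^ 2) :
    jacobiSym (2 * C) p = 1 := by
  have hp4 : p % 4 = 1 := by omega
  have hodd : Odd p := Nat.odd_iff.mpr (by omega)
  have h2 : jacobiSym 2 p = 1 := by
    rw [jacobiSym.at_two hodd, ZMod.χ₈_nat_eq_if_mod_eight, if_neg (by omega), if_pos (Or.inl h8)]
  have hC : C.natAbs ≠ 0 := fun e => by
    rw [Int.natAbs_eq_zero.mp e] at h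
    have hd : p = x.natAbs ^ 2 := by
      zify
      rw [sq_abs]
      linarith
    exact (Nat.prime_iff.mp hp.out).irreducible.not_isSquare ⟨x.natAbs, by rw [hd, pow_two]⟩
  obtain ⟨e, w, hw, hCw⟩ := Nat.exists_eq_pow_mul_and_not_dvd hC 2 (by norm_num)
  have hwo : Odd w := Nat.odd_iff.mpr (by omega)
  have hcop : x.natAbs.Coprime w := Nat.coprime_of_dvd' fun q hq hqx hqw => by
    have h1 : (q : ℤ) ∣ x := Int.natCast_dvd.mpr hqx
    have h3 : (q : ℤ) ∣ C := Int.natCast_dvd.mpr (hCw ▸ dvd_mul_of_dvd_right hqw _)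
    have : (q : ℤ) * q ∣ p := h ▸ dvd_add (by rw [pow_two]; exact mul_dvd_mul h1 h1)
      (dvd_mul_of_dvd_right (by rw [pow_two]; exact mul_dvd_mul h3 h3) 8)
    have hqq : q * q ∣ p := by exact_mod_cast this
    rcases (Nat.dvd_prime hp.out).mp hqq with e' | e'
    · exact absurd (Nat.eq_one_of_mul_eq_one_right e') hq.ne_one
    · exact absurd (e' ▸ hp.out) (Nat.not_prime_mul hq.ne_one hq.ne_one)
  have habs : jacobiSym C p = jacobiSym (C.natAbs : ℤ) p := by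
    rcases Int.natAbs_eq C with e' | e'
    · exact congrArg (fun t => jacobiSym t p) e'
    · conv_lhs => rw [e']
      rw [jacobiSym.neg _ hodd, ZMod.χ₄_nat_one_mod_four hp4, one_mul]
  rw [jacobiSym.mul_left, h2, habs, hCw, one_mul, Nat.cast_mul, Nat.cast_pow, jacobiSym.mul_left,
    jacobiSym.pow_left, Nat.cast_ofNat, h2, one_pow, one_mul,
    jacobiSym.quadratic_reciprocity_one_mod_four' hwo hp4,
    jacobiSym.mod_left' (a₂ := x ^ 2) (by
      have hd : (w : ℤ) ∣ C := Int.natCast_dvd.mpr (hCw ▸ dvd_mul_left w _)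
      exact Int.emod_eq_emod_iff_emod_sub_eq_zero.mpr (Int.emod_eq_zero_of_dvd (by
        rw [h, show x ^ 2 + 8 * C ^ 2 - x ^ 2 = C * (8 * C) by ring]
        exact hd.mul_right _))),
    jacobiSym.sq_one' (by simpa [Int.gcd] using hcop)]

/-- `(a / p) = (2 / |a|)` and `(x / p) = (2 / |x|)`. -/
theorem jacobi_flip (h8 : p % 8 = 1) {a : ℤ} (ha : Odd a.natAbs) {m : ℤ}
    (h : (a.natAbs : ℤ) ∣ (p : ℤ) - m) : jacobiSym a p = jacobiSym m a.natAbs := by
  have hp4 : p % 4 = 1 := by omega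
  have habs : jacobiSym a p = jacobiSym (a.natAbs : ℤ) p := by
    rcases Int.natAbs_eq a with e' | e'
    · exact congrArg (fun t => jacobiSym t p) e'
    · conv_lhs => rw [e']
      rw [jacobiSym.neg _ (Nat.odd_iff.mpr (by omega)), ZMod.χ₄_nat_one_mod_four hp4, one_mul]
  rw [habs, jacobiSym.quadratic_reciprocity_one_mod_four' ha hp4,
    jacobiSym.mod_left' (a₂ := m)
      (Int.emod_eq_emod_iff_emod_sub_eq_zero.mpr (Int.emod_eq_zero_of_dvd h))]

/-- **`(z / p) = (-1) ^ C`.** -/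
theorem jacobi_z_iff_even (h8 : p % 8 = 1) {a : ℤ} {z : ℕ} (hz : 0 < z)
    (h : (p : ℤ) = 2 * (z : ℤ) ^ 2 - a ^ 2) {x C : ℤ} (hx : (p : ℤ) = x ^ 2 + 8 * C ^ 2) :
    jacobiSym z p = 1 ↔ Even C := by
  obtain ⟨hao, hzo, hco, hpz, hpa⟩ := rep_pell_facts h8 hz h
  have hxo : Odd x.natAbs := by
    rcases Nat.even_or_odd x.natAbs with e | e
    · exfalso
      obtain ⟨t, rfl⟩ : (2 : ℤ) ∣ x := Int.natCast_dvd.mpr e.two_dvd
      ring_nf at hx
      omega
    · exact e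
  have hC : C ≠ 0 := fun e => by
    subst e
    have hd : p = x.natAbs ^ 2 := by
      zify
      rw [sq_abs]
      linarith
    exact (Nat.prime_iff.mp hp.out).irreducible.not_isSquare ⟨x.natAbs, by rw [hd, pow_two]⟩
  have h2ne : (2 : ZMod p) ≠ 0 := by
    intro e
    have e' : ((2 : ℕ) : ZMod p) = 0 := by exact_mod_cast e
    have := Nat.le_of_dvd two_pos ((ZMod.natCast_eq_zero_iff 2 p).mp e')
    have := hp.out.two_le
    omega
  have ea : (a : ZMod p) ^ 2 = 2 * (z : ZMod p) ^ 2 := by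
    have e := congrArg (fun t : ℤ => (t : ZMod p)) h
    push_cast at e
    rw [ZMod.natCast_self] at e
    linear_combination e
  have ex : (x : ZMod p) ^ 2 = -(8 * (C : ZMod p) ^ 2) := by
    have e := congrArg (fun t : ℤ => (t : ZMod p)) hx
    push_cast at e
    rw [ZMod.natCast_self] at e
    linear_combination -e
  have hz0 : (z : ZMod p) ≠ 0 := fun e => hpz ((ZMod.natCast_eq_zero_iff z p).mp e)
  have hC0 : (C : ZMod p) ≠ 0 := fun e => by
    rw [e] at ex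
    have hx0 : (x : ZMod p) = 0 := by simpa using ex
    have h1 := (ZMod.intCast_zmod_eq_zero_iff_dvd _ p).mp hx0
    have h2 := (ZMod.intCast_zmod_eq_zero_iff_dvd _ p).mp e
    have hh : (p : ℤ) * p ∣ p := by
      conv_rhs => rw [hx, pow_two, pow_two]
      exact dvd_add (mul_dvd_mul h1 h1) (dvd_mul_of_dvd_right (mul_dvd_mul h2 h2) 8)
    have : p * p ∣ p := by exact_mod_cast hh
    have := Nat.le_of_dvd hp.out.pos this
    nlinarith [hp.out.two_le]
  set T : ZMod p := (a : ZMod p) * z * x * (2 * C) with hT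
  set S : ZMod p := 8 * (z : ZMod p) ^ 2 * (C : ZMod p) ^ 2 with hS
  have h8ne : (8 : ZMod p) ≠ 0 := by
    rw [show (8 : ZMod p) = 2 ^ 3 by norm_num]; exact pow_ne_zero _ h2ne
  have hS0 : S ≠ 0 := mul_ne_zero (mul_ne_zero h8ne (pow_ne_zero _ hz0)) (pow_ne_zero _ hC0)
  have hTS : T ^ 2 = -S ^ 2 := by
    rw [hT, hS, mul_pow, mul_pow, mul_pow, mul_pow, ea, ex]
    ring
  have hi : IsSquare (T / S) := by
    have hi2 : (T / S) ^ 2 = -1 := by rw [div_pow, hTS, neg_div, div_self (pow_ne_zero 2 hS0)]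
    refine (ZMod.euler_criterion p (fun e => by rw [e] at hi2; simp at hi2)).mpr ?_
    obtain ⟨k, hk⟩ : ∃ k, p / 2 = 2 * (2 * k) := ⟨p / 8, by omega⟩
    rw [hk, pow_mul, hi2, pow_mul, neg_one_sq, one_pow]
  have hSsq : IsSquare S := by
    obtain ⟨r, hr⟩ := isSquare_two (p := p) h8
    exact ⟨r * 2 * z * C, by
      rw [hS, show (8 : ZMod p) = 2 * 2 * 2 by norm_num]
      linear_combination 4 * (z : ZMod p) ^ 2 * (C : ZMod p) ^ 2 * hr⟩
  have hTsq : IsSquare T := by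
    have := hi.mul hSsq
    rwa [div_mul_cancel₀ T hS0] at this
  have hj : jacobiSym a p * jacobiSym z p * jacobiSym x p * jacobiSym (2 * C) p = 1 := by
    rw [← jacobiSym.mul_left, ← jacobiSym.mul_left, ← jacobiSym.mul_left,
      ← jacobiSym.legendreSym.to_jacobiSym, legendreSym.eq_one_iff p (by
        push_cast
        intro e
        rw [← hT] at e
        rw [e, zero_pow two_ne_zero, eq_comm, neg_eq_zero] at hTS
        exact hS0 (pow_eq_zero_iff two_ne_zero |>.mp hTS))]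
    push_cast
    exact hTsq
  rw [jacobi_part h8 hx, mul_one] at hj
  have ha2 : jacobiSym a p = jacobiSym 2 a.natAbs := by
    rw [jacobi_flip h8 hao (m := 2 * (z : ℤ) ^ 2)
      (by
        rw [h, sub_sub_cancel_left, dvd_neg]
        exact dvd_pow (Int.natAbs_dvd.mpr dvd_rfl) two_ne_zero),
      jacobiSym.mul_left, jacobiSym.sq_one' (by rw [Int.gcd_natCast_natCast]; exact hco.symm),
      mul_one]
  have hx2 : jacobiSym x p = jacobiSym 2 x.natAbs := by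
    rw [jacobi_flip h8 hxo (m := 2 * (2 * C) ^ 2)
      (by
        rw [hx, show x ^ 2 + 8 * C ^ 2 - 2 * (2 * C) ^ 2 = x ^ 2 by ring]
        exact dvd_pow (Int.natAbs_dvd.mpr dvd_rfl) two_ne_zero),
      jacobiSym.mul_left, jacobiSym.sq_one' ?_, mul_one]
    show Nat.gcd (2 * C).natAbs x.natAbs = 1
    rw [Int.natAbs_mul]
    refine Nat.Coprime.mul_left (Nat.coprime_two_left.mpr hxo) ?_
    refine Nat.coprime_of_dvd' fun q hq hqC hqx => ?_
    have h1 : (q : ℤ) ∣ x := Int.natCast_dvd.mpr hqx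
    have h3 : (q : ℤ) ∣ C := Int.natCast_dvd.mpr hqC
    have : (q : ℤ) * q ∣ p := hx ▸ dvd_add (by rw [pow_two]; exact mul_dvd_mul h1 h1)
      (dvd_mul_of_dvd_right (by rw [pow_two]; exact mul_dvd_mul h3 h3) 8)
    have hqq : q * q ∣ p := by exact_mod_cast this
    rcases (Nat.dvd_prime hp.out).mp hqq with e' | e'
    · exact absurd (Nat.eq_one_of_mul_eq_one_right e') hq.ne_one
    · exact absurd (e' ▸ hp.out) (Nat.not_prime_mul hq.ne_one hq.ne_one)
  rw [ha2, hx2] at hj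
  have pm : ∀ n : ℕ, Odd n → jacobiSym 2 n = 1 ∨ jacobiSym 2 n = -1 := fun n hn =>
    jacobiSym.eq_one_or_neg_one (by
      show Nat.gcd 2 n = 1
      exact Nat.coprime_two_left.mpr hn)
  have A := jacobi_two_eq_one_iff hao
  have X := jacobi_two_eq_one_iff hxo
  have hmod : ((a.natAbs ^ 2 % 16 = 1) ↔ (x.natAbs ^ 2 % 16 = 1)) ↔ Even C := by
    have e1 : ((a.natAbs ^ 2 : ℕ) : ℤ) = a ^ 2 := by push_cast; exact sq_abs a
    have e2 : ((x.natAbs ^ 2 : ℕ) : ℤ) = x ^ 2 := by push_cast; exact sq_abs x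
    obtain ⟨u, hu⟩ := hao
    obtain ⟨v, hv⟩ := hxo
    obtain ⟨w, hw⟩ := hzo
    have hu2 : ∃ k, a.natAbs ^ 2 = 8 * k + 1 := ⟨u * (u + 1) / 2, by
      rw [hu]; obtain ⟨k, hk⟩ := (Nat.even_mul_succ_self u).two_dvd
      rw [hk, Nat.mul_div_cancel_left _ two_pos]; nlinarith⟩
    have hv2 : ∃ k, x.natAbs ^ 2 = 8 * k + 1 := ⟨v * (v + 1) / 2, by
      rw [hv]; obtain ⟨k, hk⟩ := (Nat.even_mul_succ_self v).two_dvd
      rw [hk, Nat.mul_div_cancel_left _ two_pos]; nlinarith⟩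
    have hz2 : ∃ k : ℤ, (z : ℤ) ^ 2 = 8 * k + 1 := by
      obtain ⟨k, hk⟩ := (Nat.even_mul_succ_self w).two_dvd
      exact ⟨k, by rw [hw]; push_cast; push_cast [← @Nat.cast_inj ℤ] at hk; nlinarith⟩
    obtain ⟨k1, hk1⟩ := hu2
    obtain ⟨k2, hk2⟩ := hv2
    obtain ⟨k3, hk3⟩ := hz2
    rw [hk3, ← e1, hk1] at h
    rw [← e2, hk2] at hx
    rcases Int.even_or_odd' C with ⟨t, rfl | rfl⟩
    · rw [show (2 * t) ^ 2 = 4 * t ^ 2 by ring] at hx
      refine iff_of_true ?_ ⟨t, by ring⟩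
      rw [hk1, hk2]
      push_cast at h hx
      omega
    · rw [show (2 * t + 1) ^ 2 = 4 * (t ^ 2 + t) + 1 by ring] at hx
      refine iff_of_false ?_ (by rintro ⟨r, hr⟩; omega)
      rw [hk1, hk2]
      push_cast at h hx
      omega
  rw [← hmod, ← A, ← X]
  rcases pm _ hao with e | e <;> rcases pm _ hxo with e' | e' <;> rw [e, e'] at hj ⊢ <;>
    constructor <;> intro hh <;> simp_all

end FA.ClassEight
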