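import Fermat.Agent.ClassNumberModEight.Squares
import Fermat.Agent.ClassNumberModEight.Symbols
import Fermat.Agent.QuadForms.Ternary
import Fermat.Agent.Tau.FieldGenus

/-!
# The class number of `ℚ(√-p)` modulo eight

For a prime `p ≡ 1 (mod 4)` the class `t` of `(2, 1 + s)` is the only involution. For
`p ≡ 1 (mod 8)` and `p = 2 z² - a²` the class of `(z, a + s)` has square `t⁻¹ = t`, so `8 ∣ h`
iff it is a square, iff `z` is a norm from `ℚ(√-p)`, iff `(z / p) = 1`.
-/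

set_option autoImplicit false
set_option linter.style.haveILetI false

noncomputable section

open NumberField Module
open scoped Classical nonZeroDivisors

namespace FA.ClassEight

open FA.RedeiReichardt (sqrt_ne_zero coe_sqrt norm_coords exists_norm_eq)
open FA.QuadForms (Iso3)

section Group

variable {G : Type*} [CommGroup G] [Finite G] {t C : G}

/-- With one involution `t` a square, four divides the order; and conversely. -/
theorem four_dvd_card_iff (ht1 : t ≠ 1) (ht : t * t = 1)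
    (hall : ∀ c : G, c * c = 1 → c = 1 ∨ c = t) : 4 ∣ Nat.card G ↔ IsSquare t := by
  constructor
  · intro h4
    have hk : Nat.card (powMonoidHom 2 : G →* G).ker = 2 := by
      rw [show Nat.card (powMonoidHom 2 : G →* G).ker = Nat.card ({1, t} : Set G) from
        Nat.card_congr (Equiv.subtypeEquivRight fun c => by
          rw [MonoidHom.mem_ker, powMonoidHom_apply, pow_two, Set.mem_insert_iff,
            Set.mem_singleton_iff]
          exact ⟨hall c, fun h => by rcases h with rfl | rfl <;> simp [ht]⟩),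
        Nat.card_coe_set_eq, Set.ncard_pair ht1.symm]
    have h := (powMonoidHom 2 : G →* G).ker.card_mul_index
    rw [Subgroup.index_ker, hk] at h
    haveI : Fact (Nat.Prime 2) := ⟨Nat.prime_two⟩
    obtain ⟨x, hx⟩ := exists_prime_orderOf_dvd_card' (G := (powMonoidHom 2 : G →* G).range) 2
      (by omega)
    obtain ⟨c, hc⟩ := x.2
    have h6 := congrArg Subtype.val (pow_orderOf_eq_one x)
    rw [hx] at h6
    have hx1 : (x : G) ≠ 1 := fun e => by
      rw [← Subgroup.orderOf_coe, e, orderOf_one] at hx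
      norm_num at hx
    have hxt : (x : G) = t := (hall _ (by rw [← pow_two]; exact h6)).resolve_left hx1
    exact ⟨c, by rw [← hxt, ← hc, powMonoidHom_apply, pow_two]⟩
  · rintro ⟨c, rfl⟩
    have hord : orderOf c = 2 ^ (1 + 1) :=
      orderOf_eq_prime_pow (by rw [pow_one, pow_two]; exact ht1)
        (by rw [show 2 ^ (1 + 1) = 2 * 2 from rfl, pow_mul, pow_two, pow_two, ht])
    have := orderOf_dvd_natCard c
    rwa [hord] at this

/-- With `C² = t`, eight divides the order iff `C` is a square. -/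
theorem eight_dvd_card_iff (ht1 : t ≠ 1) (ht : t * t = 1)
    (hall : ∀ c : G, c * c = 1 → c = 1 ∨ c = t) (hC : C * C = t) :
    8 ∣ Nat.card G ↔ IsSquare C := by
  have hCord : orderOf C = 2 ^ (1 + 1) :=
    orderOf_eq_prime_pow (by rw [pow_one, pow_two, hC]; exact ht1)
      (by rw [show 2 ^ (1 + 1) = 2 * 2 from rfl, pow_mul, pow_two, pow_two, hC, ht])
  constructor
  · intro h8
    have hsub : ∀ x : G, x ^ 4 = 1 → x ∈ ({1, t, C, C * t} : Finset G) := fun x hx => by
      have h2 : x * x = 1 ∨ x * x = t :=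
        hall _ (by rw [← mul_assoc, ← hx]; simp only [pow_succ, pow_zero, one_mul])
      simp only [Finset.mem_insert, Finset.mem_singleton]
      rcases h2 with h2 | h2
      · rcases hall x h2 with e | e <;> simp [e]
      · have h3 : (x * C⁻¹) * (x * C⁻¹) = 1 := by
          rw [mul_mul_mul_comm, h2, ← mul_inv, hC, mul_inv_cancel]
        rcases hall _ h3 with e | e <;> rw [mul_inv_eq_iff_eq_mul] at e
        · rw [one_mul] at e
          simp [e]
        · rw [mul_comm] at e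
          simp [e]
    have hk : Nat.card (powMonoidHom 4 : G →* G).ker ≤ 4 := by
      have hinj : Function.Injective fun x : (powMonoidHom 4 : G →* G).ker =>
          (⟨x.1, hsub x.1 x.2⟩ : ({1, t, C, C * t} : Finset G)) := fun x y e =>
        Subtype.ext (by simpa using e)
      refine (Nat.card_le_card_of_injective _ hinj).trans ?_
      rw [Nat.card_eq_fintype_card, Fintype.card_coe]
      exact Finset.card_le_four
    have hk4 : 4 ∣ Nat.card (powMonoidHom 4 : G →* G).ker := by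
      have h := Subgroup.orderOf_dvd_natCard (powMonoidHom 4 : G →* G).ker (x := C) (by
        show C ^ 4 = 1
        rw [show (4 : ℕ) = 2 * 2 from rfl, pow_mul, pow_two, pow_two, hC, ht])
      rwa [hCord] at h
    have hkc : Nat.card (powMonoidHom 4 : G →* G).ker = 4 :=
      le_antisymm hk (Nat.le_of_dvd Nat.card_pos hk4)
    have h := (powMonoidHom 4 : G →* G).ker.card_mul_index
    rw [Subgroup.index_ker, hkc] at h
    haveI : Fact (Nat.Prime 2) := ⟨Nat.prime_two⟩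
    obtain ⟨x, hx⟩ := exists_prime_orderOf_dvd_card' (G := (powMonoidHom 4 : G →* G).range) 2
      (by omega)
    obtain ⟨D, hD⟩ := x.2
    have h6 := congrArg Subtype.val (pow_orderOf_eq_one x)
    rw [hx] at h6
    have hx1 : (x : G) ≠ 1 := fun e => by
      rw [← Subgroup.orderOf_coe, e, orderOf_one] at hx
      norm_num at hx
    have hxt : (x : G) = t := (hall _ (by rw [← pow_two]; exact h6)).resolve_left hx1
    rw [← hD, powMonoidHom_apply] at hxt
    have h3 : (C * (D * D)⁻¹) * (C * (D * D)⁻¹) = 1 := by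
      rw [mul_mul_mul_comm, hC, ← mul_inv,
        show D * D * (D * D) = D ^ 4 by simp only [pow_succ, pow_zero, one_mul, mul_assoc],
        hxt, mul_inv_cancel]
    rcases hall _ h3 with e | e <;> rw [mul_inv_eq_iff_eq_mul] at e
    · exact ⟨D, by rw [e, one_mul]⟩
    · exact ⟨D ^ 2 * D, by
        rw [e, ← hxt]
        simp only [pow_succ, pow_zero, one_mul, mul_assoc]⟩
  · rintro ⟨D, rfl⟩
    have h4 : D ^ (2 ^ 2) = t := by
      rw [← hC]
      simp only [show (2 : ℕ) ^ 2 = 4 from rfl, pow_succ, pow_zero, one_mul, mul_assoc]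
    have hord : orderOf D = 2 ^ (2 + 1) :=
      orderOf_eq_prime_pow (by rw [h4]; exact ht1) (by rw [pow_succ 2 2, pow_mul, h4, pow_two, ht])
    have := orderOf_dvd_natCard D
    rwa [hord] at this

end Group

section Local

variable {p : ℕ} [hp : Fact p.Prime]

/-- Solubility at `p` of `-p x² + u y² = z²` gives `(u / p) = 1`. -/
theorem jacobi_of_iso3 (hp2 : p ≠ 2) {u : ℕ} (hu : ¬ p ∣ u) (h : Iso3 (-(p : ℚ)) (u : ℚ)) :
    jacobiSym u p = 1 := by
  have hpZ : (p : ℤ) ≠ 0 := Int.natCast_ne_zero.mpr hp.out.ne_zero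
  have hu0 : (u : ℤ) ≠ 0 := Int.natCast_ne_zero.mpr fun e => hu (e ▸ dvd_zero p)
  obtain ⟨x, y, z, hne, he⟩ := h
  have h' : Iso3 ((-(p : ℤ) : ℤ) : ℚ_[p]) ((u : ℤ) : ℚ_[p]) := by
    refine ⟨(x : ℚ_[p]), (y : ℚ_[p]), (z : ℚ_[p]), by simpa using hne, ?_⟩
    have e := congrArg (fun t : ℚ => (t : ℚ_[p])) he
    push_cast at e ⊢
    exact e
  have hs := FA.QuadForms.sym_eq_one_of_iso (neg_ne_zero.mpr hpZ) hu0 h'
  obtain ⟨a1, a2⟩ := FA.QuadForms.unitPart_prime_mul (p := p) (u := (-1 : ℤ))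
    (FA.QuadForms.not_dvd_neg_one hp.out)
  obtain ⟨b1, b2⟩ := FA.QuadForms.unitPart_of_not_dvd (p := p) (a := (u : ℤ))
    (by rw [Int.natCast_dvd_natCast]; exact hu)
  rw [FA.QuadForms.sym_odd hp.out hp2, FA.QuadForms.symOdd,
    show -(p : ℤ) = (p : ℤ) * -1 by ring, a1, a2, b1, b2] at hs
  simp only [mul_zero, pow_zero, one_mul, pow_one] at hs
  exact hs

/-- The local conditions for `z` in `p = 2 z² - a²`. -/
theorem iso3_of_rep (h8 : p % 8 = 1) {a : ℤ} {z : ℕ} (hz : 0 < z)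
    (h : (p : ℤ) = 2 * (z : ℤ) ^ 2 - a ^ 2) (hz4 : z % 4 = 1) : Iso3 (-(p : ℚ)) (z : ℚ) := by
  have hp2 : p ≠ 2 := by omega
  obtain ⟨hao, hzo, hco, hpz, hpa⟩ := rep_pell_facts h8 hz h
  have hp0 : -(p : ℤ) ≠ 0 := neg_ne_zero.mpr (Int.natCast_ne_zero.mpr hp.out.ne_zero)
  have hz0 : (z : ℤ) ≠ 0 := by omega
  have hloc : FA.QuadForms.LocalIso3 (-(p : ℤ)) (z : ℤ) := by
    refine FA.QuadForms.localIso3_of_others hp0 hz0 hp2
      ⟨0, 1, Real.sqrt z, Or.inr (Or.inl one_ne_zero), ?_⟩ fun q hq hqp => ?_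
    · push_cast
      rw [Real.sq_sqrt (Nat.cast_nonneg z)]
      ring
    by_cases hq2 : q = 2
    · subst hq2
      by_cases hz8 : (8 : ℤ) ∣ (z : ℤ) - 1
      · obtain ⟨w, hw⟩ := FA.QuadForms.isSquare_two_of_modEq hz8
        exact ⟨0, 1, w, Or.inr (Or.inl one_ne_zero), by rw [hw]; ring⟩
      · obtain ⟨w, hw⟩ := FA.QuadForms.isSquare_two_of_modEq
          (n := 4 * -(p : ℤ) + (z : ℤ)) (by omega)
        refine ⟨2, 1, w, Or.inl two_ne_zero, ?_⟩
        push_cast at hw ⊢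
        linear_combination hw
    · by_cases hqz : q ∣ z
      · have hq1 : ¬ (q : ℤ) ∣ -(p : ℤ) := by
          rw [dvd_neg, Int.natCast_dvd_natCast, Nat.prime_dvd_prime_iff_eq hq.out hp.out]
          exact hqp
        obtain ⟨w, hw⟩ := FA.QuadForms.isSquare_of_residue (p := q) hq2 (n := -(p : ℤ)) hq1
          ⟨(a : ZMod q), by
            have e := congrArg (fun t : ℤ => (t : ZMod q)) h
            push_cast at e ⊢
            rw [(ZMod.natCast_eq_zero_iff z q).mpr hqz] at e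
            rw [e]
            ring⟩
        exact ⟨1, 0, w, Or.inl one_ne_zero, by rw [hw]; ring⟩
      · exact FA.QuadForms.iso3_of_units hq2
          (by
            rw [dvd_neg, Int.natCast_dvd_natCast, Nat.prime_dvd_prime_iff_eq hq.out hp.out]
            exact hqp)
          (by rw [Int.natCast_dvd_natCast]; exact hqz)
  obtain ⟨x, y, w, hne, he⟩ := FA.QuadForms.iso3_of_local _ _ hp0 hz0 hloc
  exact ⟨x, y, w, hne, by push_cast at he ⊢; exact he⟩

end Local

section Field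

variable {p : ℕ} [hp : Fact p.Prime] {K : Type*} [Field K] [NumberField K] {s : 𝓞 K}
  (hK : finrank ℚ K = 2) (h4 : p % 4 = 1) (hs : s ^ 2 = -(p : 𝓞 K))

/-- `(2, 1 + s)`. -/
def twoIdeal (s : 𝓞 K) : Ideal (𝓞 K) := Ideal.span {(2 : 𝓞 K), 1 + s}

include h4 hs in
theorem twoIdeal_sq : twoIdeal s * twoIdeal s = Ideal.span {(2 : 𝓞 K)} := by
  obtain ⟨k, hk⟩ : ∃ k, p = 4 * k + 1 := ⟨p / 4, by omega⟩
  have hk' : (p : 𝓞 K) = 4 * k + 1 := by exact_mod_cast congrArg (fun t : ℕ => (t : 𝓞 K)) hk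
  rw [twoIdeal, Ideal.span_pair_mul_span_pair]
  refine le_antisymm ?_ ?_
  · rw [Ideal.span_le]
    rintro z (rfl | rfl | rfl | rfl) <;> rw [SetLike.mem_coe, Ideal.mem_span_singleton]
    · exact dvd_mul_right _ _
    · exact dvd_mul_right _ _
    · exact dvd_mul_left _ _
    · exact ⟨s - 2 * (k : 𝓞 K), by linear_combination hs - hk'⟩
  · rw [Ideal.span_singleton_le_iff_mem]
    have hm : ∀ z ∈ ({(2 : 𝓞 K) * 2, 2 * (1 + s), (1 + s) * 2, (1 + s) * (1 + s)} : Set (𝓞 K)),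
        z ∈ Ideal.span ({(2 : 𝓞 K) * 2, 2 * (1 + s), (1 + s) * 2, (1 + s) * (1 + s)} : Set (𝓞 K)) :=
      fun z hz => Ideal.subset_span hz
    have h := sub_mem (sub_mem (hm (2 * (1 + s)) (by simp)) (hm ((1 + s) * (1 + s)) (by simp)))
      (Ideal.mul_mem_left _ (k : 𝓞 K) (hm (2 * 2) (by simp)))
    convert h using 1
    linear_combination hs - hk'

include hs in
theorem twoIdeal_ne : twoIdeal s ≠ ⊥ := fun h => by
  have h2 : (2 : 𝓞 K) ∈ twoIdeal s := Ideal.subset_span (by simp)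
  rw [h, Ideal.mem_bot] at h2
  exact two_ne_zero h2

include hK h4 hs in
theorem absNorm_twoIdeal : Ideal.absNorm (twoIdeal s) = 2 := by
  refine Nat.pow_left_injective two_ne_zero ?_
  show Ideal.absNorm (twoIdeal s) ^ 2 = 2 ^ 2
  rw [pow_two, ← map_mul, twoIdeal_sq h4 hs, Ideal.absNorm_span_singleton,
    show (2 : 𝓞 K) = algebraMap ℤ (𝓞 K) ((2 : ℕ) : ℤ) by rw [map_natCast]; norm_num,
    Algebra.norm_algebraMap,
    RingOfIntegers.rank, hK, Int.natAbs_pow, Int.natAbs_natCast]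

/-- The class `t`. -/
def twoClass (hs : s ^ 2 = -(p : 𝓞 K)) : ClassGroup (𝓞 K) :=
  ClassGroup.mk0 ⟨twoIdeal s, mem_nonZeroDivisors_iff_ne_zero.mpr (twoIdeal_ne hs)⟩

include hK h4 in
theorem twoClass_ne_one : twoClass hs ≠ 1 := fun h => by
  rw [twoClass, ClassGroup.mk0_eq_one_iff] at h
  obtain ⟨β, hβ⟩ := h
  rw [Ideal.submodule_span_eq] at hβ
  obtain ⟨A, B, hAB⟩ := exists_norm_eq hK hp.out.squarefree hs β
  have hN := absNorm_twoIdeal hK h4 hs
  rw [show twoIdeal s = Ideal.span {β} from hβ, Ideal.absNorm_span_singleton] at hN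
  have hpos : 0 ≤ Algebra.norm ℤ β := by nlinarith [sq_nonneg A, sq_nonneg B]
  rw [show Algebra.norm ℤ β = 2 by omega] at hAB
  have hp5 : 5 ≤ (p : ℤ) := by have := hp.out.two_le; omega
  have hA : A ^ 2 ≤ 8 := by nlinarith [sq_nonneg B]
  have hA2 : A.natAbs ≤ 2 := by
    by_contra hlt
    push Not at hlt
    have h9 : (3 : ℤ) ^ 2 ≤ |A| ^ 2 := pow_le_pow_left₀ (by norm_num)
      (by rw [Int.abs_eq_natAbs]; exact_mod_cast hlt) 2
    rw [sq_abs] at h9
    omega
  have hB : B.natAbs ≤ 1 := by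
    by_contra hlt
    push Not at hlt
    have h9 : (2 : ℤ) ^ 2 ≤ |B| ^ 2 := pow_le_pow_left₀ (by norm_num)
      (by rw [Int.abs_eq_natAbs]; exact_mod_cast hlt) 2
    rw [sq_abs] at h9
    nlinarith
  rcases (show A = 0 ∨ A = 1 ∨ A = -1 ∨ A = 2 ∨ A = -2 by omega) with
    rfl | rfl | rfl | rfl | rfl <;>
    rcases (show B = 0 ∨ B = 1 ∨ B = -1 by omega) with rfl | rfl | rfl <;> norm_num at hAB <;> omega

include h4 in
theorem twoClass_mul_self : twoClass hs * twoClass hs = 1 := by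
  rw [twoClass, ← map_mul, ClassGroup.mk0_eq_one_iff]
  exact ⟨⟨2, twoIdeal_sq h4 hs⟩⟩

include hK h4 in
theorem eq_one_or_twoClass {c : ClassGroup (𝓞 K)} (hc : c * c = 1) : c = 1 ∨ c = twoClass hs := by
  have hp0 : 0 < p := hp.out.pos
  have h := FA.FieldClassBound.card_two_torsion_eq hK (d := -(p : ℤ))
    (Int.squarefree_natAbs.mp (by
      rw [Int.natAbs_neg, Int.natAbs_natCast]
      exact hp.out.squarefree)) (by omega) (coe_sqrt hs)
  rw [FA.FieldClassBound.discK, if_neg (by omega), Int.natAbs_mul, Int.natAbs_neg,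
    Int.natAbs_natCast, show (4 : ℤ).natAbs = 2 ^ 2 from rfl,
    Nat.Coprime.primeFactors_mul
      ((Nat.coprime_two_left.mpr (Nat.odd_iff.mpr (by omega))).pow_left 2),
    Nat.primeFactors_prime_pow two_ne_zero Nat.prime_two, hp.out.primeFactors,
    Finset.card_union_of_disjoint (by simp; omega), Finset.card_singleton, Finset.card_singleton]
    at h
  by_contra hne
  push Not at hne
  let f : Fin 3 → {c : ClassGroup (𝓞 K) // c * c = 1} :=
    ![⟨1, one_mul 1⟩, ⟨twoClass hs, twoClass_mul_self h4 hs⟩, ⟨c, hc⟩]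
  have hf : Function.Injective f := by
    intro i j hij
    have h1 := twoClass_ne_one hK h4 hs
    fin_cases i <;> fin_cases j <;> first
      | rfl
      | (exfalso; simp [f, h1, h1.symm, hne.1, hne.1.symm, hne.2, hne.2.symm] at hij)
  have := Nat.card_le_card_of_injective f hf
  rw [h, Nat.card_fin] at this
  norm_num at this

include hK h4 in
theorem four_dvd_of_isSquare : 4 ∣ classNumber K ↔ IsSquare (twoClass hs) := by
  rw [classNumber, ← Nat.card_eq_fintype_card]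
  exact four_dvd_card_iff (twoClass_ne_one hK h4 hs) (twoClass_mul_self h4 hs)
    fun _ => eq_one_or_twoClass hK h4 hs

include hK h4 in
theorem two_dvd_classNumber (hs : s ^ 2 = -(p : 𝓞 K)) : 2 ∣ classNumber K := by
  have hord : orderOf (twoClass hs) = 2 :=
    orderOf_eq_prime (by rw [pow_two]; exact twoClass_mul_self h4 hs) (twoClass_ne_one hK h4 hs)
  have := orderOf_dvd_natCard (twoClass hs)
  rwa [hord, Nat.card_eq_fintype_card] at this

include hK h4 in
/-- If `4 ∣ h` then `p ≡ 1 (mod 8)`. -/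
theorem mod_eight_of_four_dvd (hs : s ^ 2 = -(p : 𝓞 K)) (h : 4 ∣ classNumber K) : p % 8 = 1 := by
  have hsq := (four_dvd_of_isSquare hK h4 hs).mp h
  rw [twoClass, isSquare_mk0_iff hK hp.out.ne_zero hs, absNorm_twoIdeal hK h4 hs] at hsq
  have h2 := jacobi_of_iso3 (by omega) (fun hd => by
    have := Nat.le_of_dvd two_pos hd
    have := hp.out.two_le
    omega) hsq
  rw [Nat.cast_ofNat, jacobiSym.at_two (Nat.odd_iff.mpr (by omega)),
    ZMod.χ₈_nat_eq_if_mod_eight, if_neg (by omega)] at h2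
  split_ifs at h2 with h8
  omega

/-- `(z, a + s)`. -/
def repIdeal (s : 𝓞 K) (a : ℤ) (z : ℕ) : Ideal (𝓞 K) := Ideal.span {(z : 𝓞 K), (a : 𝓞 K) + s}

include hs in
theorem repIdeal_sq_mul (h8 : p % 8 = 1) {a : ℤ} {z : ℕ} (hz : 0 < z)
    (h : (p : ℤ) = 2 * (z : ℤ) ^ 2 - a ^ 2) :
    repIdeal s a z * repIdeal s a z * twoIdeal s = Ideal.span {(a : 𝓞 K) + s} := by
  obtain ⟨hao, hzo, hco, -, -⟩ := rep_pell_facts h8 hz h
  obtain ⟨a', ha'⟩ : ∃ a', a = 2 * a' + 1 := ⟨a / 2, by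
    have := Nat.odd_iff.mp hao
    omega⟩
  have hrel : ((a : 𝓞 K) + s) * ((a : 𝓞 K) - s) = 2 * (z : 𝓞 K) ^ 2 := by
    have e := congrArg (fun t : ℤ => (t : 𝓞 K)) h
    push_cast at e
    linear_combination e - hs
  set g : 𝓞 K := (a : 𝓞 K) + s with hg
  set T := Ideal.span ({(2 : 𝓞 K), g} : Set (𝓞 K)) with hT
  have hT2 : twoIdeal s = T := by
    have e : g = 1 + s + 2 * (a' : 𝓞 K) := by rw [hg, ha']; push_cast; ring
    rw [hT, twoIdeal]
    refine le_antisymm (Ideal.span_le.mpr ?_) (Ideal.span_le.mpr ?_)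
    · rintro y (rfl | rfl) <;> rw [SetLike.mem_coe, Ideal.mem_span_pair]
      · exact ⟨1, 0, by ring⟩
      · exact ⟨-(a' : 𝓞 K), 1, by rw [e]; ring⟩
    · rintro y (rfl | rfl) <;> rw [SetLike.mem_coe, Ideal.mem_span_pair]
      · exact ⟨1, 0, by ring⟩
      · exact ⟨(a' : 𝓞 K), 1, by rw [e]; ring⟩
  set Q := repIdeal s a z with hQ
  have hzQ : (z : 𝓞 K) ∈ Q := Ideal.subset_span (by simp)
  have hgQ : g ∈ Q := Ideal.subset_span (by simp [hg])
  have h2T : (2 : 𝓞 K) ∈ T := Ideal.subset_span (by simp)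
  have hgT : g ∈ T := Ideal.subset_span (by simp)
  rw [hT2]
  have hQQ : Q * Q ≤ Ideal.span {(z : 𝓞 K) ^ 2, g} := by
    rw [hQ, repIdeal, Ideal.span_pair_mul_span_pair, Ideal.span_le]
    rintro y (rfl | rfl | rfl | rfl) <;> rw [SetLike.mem_coe, Ideal.mem_span_pair]
    · exact ⟨1, 0, by ring⟩
    · exact ⟨0, (z : 𝓞 K), by ring⟩
    · exact ⟨0, (z : 𝓞 K), by ring⟩
    · exact ⟨0, g, by rw [hg]; ring⟩
  refine le_antisymm ?_ ?_
  · refine (Ideal.mul_mono hQQ le_rfl).trans ?_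
    rw [hT, Ideal.span_pair_mul_span_pair, Ideal.span_le]
    rintro y (rfl | rfl | rfl | rfl) <;> rw [SetLike.mem_coe, Ideal.mem_span_singleton]
    · exact ⟨(a : 𝓞 K) - s, by linear_combination -hrel⟩
    · exact dvd_mul_left _ _
    · exact dvd_mul_right _ _
    · exact dvd_mul_right _ _
  · rw [Ideal.span_singleton_le_iff_mem]
    obtain ⟨u, v, huv⟩ : IsCoprime ((z : ℤ) * z * z) (2 * a) := by
      have h1 : IsCoprime (z : ℤ) (2 * a) := Int.isCoprime_iff_nat_coprime.mpr (by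
        rw [Int.natAbs_natCast, Int.natAbs_mul]
        exact (Nat.coprime_two_right.mpr hzo).mul_right hco.symm)
      exact (h1.mul_left h1).mul_left h1
    have huv' : (u : 𝓞 K) * ((z : 𝓞 K) * z * z) + (v : 𝓞 K) * (2 * (a : 𝓞 K)) = 1 := by
      exact_mod_cast congrArg (fun t : ℤ => (t : 𝓞 K)) huv
    -- `2a g = g² + g (a - s)`
    have e1 : g = ((u : 𝓞 K) * (z : 𝓞 K)) * ((z : 𝓞 K) * (z : 𝓞 K) * g) +
        (v : 𝓞 K) * (g * g + (z : 𝓞 K) * (z : 𝓞 K) * 2) := by
      linear_combination -g * huv' + (v : 𝓞 K) * hrel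
    rw [e1]
    refine add_mem (Ideal.mul_mem_left _ _ (Ideal.mul_mem_mul (Ideal.mul_mem_mul hzQ hzQ) hgT))
      (Ideal.mul_mem_left _ _ (add_mem ?_ (Ideal.mul_mem_mul (Ideal.mul_mem_mul hzQ hzQ) h2T)))
    -- `g² ∈ Q Q T`, since `1 = odd multiple + even multiple`
    obtain ⟨u', v', h'⟩ : IsCoprime (2 : ℤ) ((z : ℤ) * z) := by
      have h1 : IsCoprime (2 : ℤ) (z : ℤ) := Int.isCoprime_iff_nat_coprime.mpr
        (by rw [Int.natAbs_natCast]; exact Nat.coprime_two_left.mpr hzo)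
      exact h1.mul_right h1
    have h'' : (u' : 𝓞 K) * 2 + (v' : 𝓞 K) * ((z : 𝓞 K) * z) = 1 := by
      exact_mod_cast congrArg (fun t : ℤ => (t : 𝓞 K)) h'
    have e2 : g * g = (u' : 𝓞 K) * (g * g * 2) + (v' : 𝓞 K) * g * ((z : 𝓞 K) * z * g) := by
      linear_combination -(g * g) * h''
    rw [e2]
    exact add_mem (Ideal.mul_mem_left _ _ (Ideal.mul_mem_mul (Ideal.mul_mem_mul hgQ hgQ) h2T))
      (Ideal.mul_mem_left _ _ (Ideal.mul_mem_mul (Ideal.mul_mem_mul hzQ hzQ) hgT))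

include hK h4 in
/-- **The criterion in `z`.** -/
theorem eight_dvd_iff_mod_four (hs : s ^ 2 = -(p : 𝓞 K)) (h8 : p % 8 = 1) {a : ℤ} {z : ℕ}
    (hz : 0 < z) (h : (p : ℤ) = 2 * (z : ℤ) ^ 2 - a ^ 2) :
    (4 ∣ classNumber K) ∧ (8 ∣ classNumber K ↔ z % 4 = 1) := by
  obtain ⟨-, -, -, hpz, -⟩ := rep_pell_facts h8 hz h
  have hQT := repIdeal_sq_mul hs h8 hz h
  set Q := repIdeal s a z with hQ
  have hQ0 : Q ≠ ⊥ := fun e => by
    have h1 : (z : 𝓞 K) ∈ Q := Ideal.subset_span (by simp)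
    rw [e, Ideal.mem_bot, Nat.cast_eq_zero] at h1
    omega
  have hnorm : Ideal.absNorm Q = z := by
    have e := congrArg Ideal.absNorm hQT
    rw [map_mul, map_mul, absNorm_twoIdeal hK h4 hs, Ideal.absNorm_span_singleton] at e
    have hn : (Algebra.norm ℤ ((a : 𝓞 K) + s) : ℚ) = 2 * (z : ℚ) ^ 2 := by
      rw [Algebra.coe_norm_int, show (((a : 𝓞 K) + s : 𝓞 K) : K) =
        ((a : ℚ) : K) + ((1 : ℚ) : K) * (s : K) by simp,
        norm_coords hK hp.out.ne_zero hs]
      have e' : (p : ℚ) = 2 * (z : ℚ) ^ 2 - (a : ℚ) ^ 2 := by exact_mod_cast h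
      rw [e']; ring
    have hn' : Algebra.norm ℤ ((a : 𝓞 K) + s) = ((2 * z ^ 2 : ℕ) : ℤ) := by
      push_cast
      exact_mod_cast hn
    rw [hn', Int.natAbs_natCast] at e
    have e3 : Ideal.absNorm Q ^ 2 = z ^ 2 := by nlinarith
    exact Nat.pow_left_injective two_ne_zero e3
  set C := ClassGroup.mk0 ⟨Q, mem_nonZeroDivisors_iff_ne_zero.mpr hQ0⟩ with hC
  have hCC : C * C = twoClass hs := by
    have h1 : C * C * twoClass hs = 1 := by
      rw [hC, twoClass, ← map_mul, ← map_mul, ClassGroup.mk0_eq_one_iff]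
      exact ⟨⟨(a : 𝓞 K) + s, hQT⟩⟩
    rw [eq_inv_of_mul_eq_one_left h1, inv_eq_of_mul_eq_one_right (twoClass_mul_self h4 hs)]
  refine ⟨(four_dvd_of_isSquare hK h4 hs).mpr ⟨C, hCC.symm⟩, ?_⟩
  rw [classNumber, ← Nat.card_eq_fintype_card,
    eight_dvd_card_iff (twoClass_ne_one hK h4 hs) (twoClass_mul_self h4 hs)
      (fun _ => eq_one_or_twoClass hK h4 hs) hCC, hC, isSquare_mk0_iff hK hp.out.ne_zero hs]
  show Iso3 (-(p : ℚ)) ((Ideal.absNorm Q : ℕ) : ℚ) ↔ _
  rw [hnorm]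
  exact ⟨fun hi => (jacobi_z h8 hz h).mp (jacobi_of_iso3 (by omega) hpz hi),
    iso3_of_rep h8 hz h⟩

end Field

end FA.ClassEight
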