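import Fermat.Agent.RedeiReichardt.Norms

/-!
# A class is a square exactly when the norm of its ideal is a norm

For an ideal `J` with `γ σγ = N J m²` put `b = (γ) + (m) J`; then `(γ) σb = (m) σJ b`, so the class
of `J` is the square of that of `b`. Conversely absolute norms make `N J` a norm.
-/

set_option autoImplicit false
set_option linter.style.haveILetI false

noncomputable section

open NumberField Module
open scoped Classical Pointwise nonZeroDivisors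

namespace FA.ClassEight

open FA.RedeiReichardt FA.QuadForms

variable {K : Type*} [Field K] [NumberField K] {n : ℕ} {s : 𝓞 K}

/-- `J σJ` is generated by the norm of `J`. -/
theorem mul_conj_eq_span (hK : finrank ℚ K = 2) {σ : K ≃ₐ[ℚ] K}
    (hσ : ∀ g : K ≃ₐ[ℚ] K, g = 1 ∨ g = σ) (J : (Ideal (𝓞 K))⁰) :
    (J : Ideal (𝓞 K)) * σ • (J : Ideal (𝓞 K)) =
      Ideal.span {((Ideal.absNorm (J : Ideal (𝓞 K)) : ℕ) : 𝓞 K)} := by
  haveI : Algebra.IsQuadraticExtension ℚ K := ⟨hK⟩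
  haveI : IsGalois ℚ K := ⟨⟩
  have hcard : Fintype.card (K ≃ₐ[ℚ] K) = 2 := by
    rw [← Nat.card_eq_fintype_card, IsGalois.card_aut_eq_finrank, hK]
  have hne : σ ≠ 1 := fun e => by
    haveI : Subsingleton (K ≃ₐ[ℚ] K) := ⟨fun a b => by
      rcases hσ a with ha | ha <;> rcases hσ b with hb | hb <;> simp [ha, hb, e]⟩
    have := Fintype.card_le_one_iff_subsingleton.mpr ‹Subsingleton (K ≃ₐ[ℚ] K)›
    omega
  have huniv : (Finset.univ : Finset (K ≃ₐ[ℚ] K)) = {1, σ} :=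
    Finset.ext fun g => by simpa using hσ g
  have hJ0 : (J : Ideal (𝓞 K)) ≠ ⊥ := nonZeroDivisors.coe_ne_zero J
  have hσJ : σ • (J : Ideal (𝓞 K)) ≠ ⊥ := fun h => hJ0 (by
    rw [← inv_smul_smul σ (J : Ideal (𝓞 K)), h, Ideal.smul_bot])
  set N := Ideal.absNorm (J : Ideal (𝓞 K)) with hN
  have hrel : Ideal.relNorm (𝓞 ℚ) (J : Ideal (𝓞 K)) = Ideal.span {(N : 𝓞 ℚ)} := by
    have hI : Ideal.relNorm (𝓞 ℚ) (J : Ideal (𝓞 K)) ≠ ⊥ := fun h =>
      hJ0 (Ideal.relNorm_eq_bot_iff.mp h)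
    refine FA.Ext.eq_of_dvd_of_absNorm_eq ?_ hI ?_
    · rw [Ideal.dvd_iff_le, Ideal.span_singleton_le_iff_mem]
      have h := Ideal.absNorm_mem (Ideal.relNorm (𝓞 ℚ) (J : Ideal (𝓞 K)))
      rwa [Ideal.absNorm_relNorm] at h
    · rw [Ideal.absNorm_relNorm, Ideal.absNorm_span_singleton,
        show (N : 𝓞 ℚ) = algebraMap ℤ (𝓞 ℚ) (N : ℤ) by simp, Algebra.norm_algebraMap,
        RingOfIntegers.rank, Module.finrank_self, pow_one, Int.natAbs_natCast]
  have hmap : (Ideal.relNorm (𝓞 ℚ) (J : Ideal (𝓞 K))).map (algebraMap (𝓞 ℚ) (𝓞 K)) =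
      (J : Ideal (𝓞 K)) * σ • (J : Ideal (𝓞 K)) := by
    symm
    refine FA.Ext.eq_of_dvd_of_absNorm_eq ?_ (mul_ne_zero hJ0 hσJ) ?_
    · rw [Ideal.dvd_iff_le, Ideal.map_relNorm, Ideal.span_le]
      rintro _ ⟨z, hz, rfl⟩
      have hz' : algebraMap (𝓞 ℚ) (𝓞 K) (Algebra.intNorm (𝓞 ℚ) (𝓞 K) z) = z * σ • z := by
        apply RingOfIntegers.coe_injective
        rw [← IsScalarTower.algebraMap_apply, IsScalarTower.algebraMap_apply (𝓞 ℚ) ℚ K,
          Algebra.algebraMap_intNorm (K := ℚ) (L := K), Algebra.norm_eq_prod_automorphisms,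
          huniv, Finset.prod_pair hne.symm, map_mul]
        rfl
      rw [Function.comp_apply, hz']
      exact Ideal.mul_mem_mul hz (Ideal.smul_mem_pointwise_smul σ z _ hz)
    · rw [map_mul, Ideal.absNorm_algebraMap, Ideal.absNorm_relNorm,
        ← IsFractionRing.finrank_eq (𝓞 ℚ) ℚ (𝓞 K) K, hK, sq,
        ← Ideal.absNorm_relNorm (𝓞 ℚ) (𝓞 K) (σ • (J : Ideal (𝓞 K))), Ideal.relNorm_smul,
        Ideal.absNorm_relNorm]
  rw [← hmap, hrel, Ideal.map_span, Set.image_singleton, map_natCast]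

/-- **The criterion.** -/
theorem isSquare_mk0_iff (hK : finrank ℚ K = 2) (hn : n ≠ 0) (hs : s ^ 2 = -(n : 𝓞 K))
    (J : (Ideal (𝓞 K))⁰) :
    IsSquare (ClassGroup.mk0 J) ↔
      Iso3 (-(n : ℚ)) ((Ideal.absNorm (J : Ideal (𝓞 K)) : ℕ) : ℚ) := by
  rw [← exists_norm_iff_iso3 hK hn hs]
  set N := Ideal.absNorm (J : Ideal (𝓞 K)) with hN
  constructor
  · rintro ⟨C, hC⟩
    obtain ⟨B, rfl⟩ := ClassGroup.mk0_surjective C
    rw [← map_mul, ClassGroup.mk0_eq_mk0_iff] at hC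
    obtain ⟨x, y, hx, -, hxy⟩ := hC
    have h := congrArg Ideal.absNorm hxy
    simp only [map_mul, Submonoid.coe_mul, Ideal.absNorm_span_singleton, ← hN] at h
    set M := Ideal.absNorm (B : Ideal (𝓞 K))
    have habs : ∀ z : 𝓞 K, ((Algebra.norm ℤ z).natAbs : ℚ) = Algebra.norm ℚ (z : K) := fun z => by
      have h0 := norm_nonneg_rat hK hn hs (z : K)
      rw [← Algebra.coe_norm_int] at h0 ⊢
      rw [Nat.cast_natAbs, abs_of_nonneg (by exact_mod_cast h0)]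
    have hx0 : Algebra.norm ℚ (x : K) ≠ 0 :=
      Algebra.norm_ne_zero_iff.mpr (RingOfIntegers.coe_ne_zero_iff.mpr hx)
    refine ⟨algebraMap ℚ K (M : ℚ) * ((y : K) / (x : K)), ?_⟩
    have h2 : Algebra.norm ℚ ((y : K) / (x : K)) * Algebra.norm ℚ (x : K) =
        Algebra.norm ℚ (y : K) := by
      rw [← map_mul, div_mul_cancel₀ _ (RingOfIntegers.coe_ne_zero_iff.mpr hx)]
    rw [map_mul, Algebra.norm_algebraMap, hK, eq_div_of_mul_eq hx0 h2, ← mul_div_assoc,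
      div_eq_iff hx0]
    have h' : ((Algebra.norm ℤ x).natAbs : ℚ) * N = (Algebra.norm ℤ y).natAbs * ((M : ℚ) * M) := by
      exact_mod_cast h
    rw [habs, habs] at h'
    linear_combination -h'
  · rintro ⟨β, hβ⟩
    obtain ⟨a, b, rfl⟩ := exists_coords_sqrt hK hn hs β
    rw [norm_coords hK hn hs] at hβ
    set m : ℕ := a.den * b.den with hm
    set A : ℤ := a.num * b.den with hA
    set B : ℤ := b.num * a.den with hB
    have hm0 : m ≠ 0 := mul_ne_zero a.den_nz b.den_nz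
    have heq : A ^ 2 + (n : ℤ) * B ^ 2 = (N : ℤ) * (m : ℤ) ^ 2 := by
      have e : ((A ^ 2 + (n : ℤ) * B ^ 2 : ℤ) : ℚ) = (((N : ℤ) * (m : ℤ) ^ 2 : ℤ) : ℚ) := by
        have ha := Rat.mul_den_eq_num a
        have hb := Rat.mul_den_eq_num b
        simp only [hA, hB, hm]
        push_cast
        rw [← ha, ← hb]
        linear_combination ((a.den : ℚ) * b.den) ^ 2 * hβ
      exact_mod_cast e
    obtain ⟨σ, hσs, hσ⟩ := exists_conj hK hn hs
    set γ : 𝓞 K := (A : 𝓞 K) + (B : 𝓞 K) * s with hγ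
    set f := MulSemiringAction.toRingHom (K ≃ₐ[ℚ] K) (𝓞 K) σ with hf
    have hfs : f s = -s := hσs
    have hγσ : γ * f γ = (N : 𝓞 K) * (m : 𝓞 K) ^ 2 := by
      rw [hγ, map_add, map_mul, map_intCast, map_intCast, hfs]
      have e := congrArg (fun z : ℤ => (z : 𝓞 K)) heq
      push_cast at e
      linear_combination e - (B : 𝓞 K) ^ 2 * hs
    set 𝔞 := (J : Ideal (𝓞 K)) with h𝔞
    have hmc : 𝔞 * 𝔞.map f = Ideal.span {(N : 𝓞 K)} := mul_conj_eq_span hK hσ J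
    set 𝔟 := Ideal.span {γ} ⊔ Ideal.span {(m : 𝓞 K)} * 𝔞 with h𝔟
    have key : Ideal.span {γ} * 𝔟.map f = Ideal.span {(m : 𝓞 K)} * (𝔞.map f * 𝔟) := by
      rw [h𝔟, Ideal.map_sup, Ideal.map_mul, Ideal.map_span, Ideal.map_span,
        Set.image_singleton, Set.image_singleton, map_natCast, Ideal.mul_sup, Ideal.mul_sup,
        Ideal.mul_sup, Ideal.span_singleton_mul_span_singleton, hγσ,
        show Ideal.span {(N : 𝓞 K) * (m : 𝓞 K) ^ 2} =
          Ideal.span {(m : 𝓞 K)} * (𝔞.map f * (Ideal.span {(m : 𝓞 K)} * 𝔞)) by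
          rw [mul_comm (Ideal.span {(m : 𝓞 K)}) 𝔞, ← mul_assoc (𝔞.map f), mul_comm (𝔞.map f), hmc,
            Ideal.span_singleton_mul_span_singleton, Ideal.span_singleton_mul_span_singleton]
          congr 2
          ring, sup_comm]
      congr 1
      ac_rfl
    have hJ0 : 𝔞 ≠ ⊥ := nonZeroDivisors.coe_ne_zero J
    have h𝔟0 : 𝔟 ≠ ⊥ := fun h => by
      rw [h𝔟, sup_eq_bot_iff, ← Ideal.zero_eq_bot, mul_eq_zero] at h
      rcases h.2 with h | h
      · rw [Ideal.zero_eq_bot, Ideal.span_singleton_eq_bot, Nat.cast_eq_zero] at h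
        exact hm0 h
      · exact hJ0 h
    have hγ0 : γ ≠ 0 := fun h => by
      rw [h, zero_mul, eq_comm, mul_eq_zero, pow_eq_zero_iff two_ne_zero, Nat.cast_eq_zero,
        Nat.cast_eq_zero] at hγσ
      rcases hγσ with h' | h'
      · exact hJ0 (Ideal.absNorm_eq_zero_iff.mp h')
      · exact hm0 h'
    have hne : ∀ I : Ideal (𝓞 K), I ≠ ⊥ → σ • I ∈ (Ideal (𝓞 K))⁰ := fun I hI =>
      mem_nonZeroDivisors_iff_ne_zero.mpr fun h =>
        hI (by rw [← inv_smul_smul σ I, h, Ideal.zero_eq_bot, Ideal.smul_bot])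
    set I : (Ideal (𝓞 K))⁰ := ⟨𝔟, mem_nonZeroDivisors_iff_ne_zero.mpr h𝔟0⟩ with hI
    set I' : (Ideal (𝓞 K))⁰ := ⟨σ • 𝔟, hne _ h𝔟0⟩ with hI'
    set J' : (Ideal (𝓞 K))⁰ := ⟨σ • 𝔞, hne _ hJ0⟩ with hJ'
    have h1 := mk0_conj_mul hK hσ I I' rfl
    have h3 := mk0_conj_mul hK hσ J J' rfl
    have h2 : ClassGroup.mk0 I' = ClassGroup.mk0 J' * ClassGroup.mk0 I := by
      rw [← map_mul, ClassGroup.mk0_eq_mk0_iff]
      exact ⟨γ, (m : 𝓞 K), hγ0, Nat.cast_ne_zero.mpr hm0, key⟩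
    refine ⟨ClassGroup.mk0 I, ?_⟩
    rw [h2] at h1
    calc ClassGroup.mk0 J
        = ClassGroup.mk0 J * (ClassGroup.mk0 I * (ClassGroup.mk0 J' * ClassGroup.mk0 I)) := by
          rw [h1, mul_one]
      _ = (ClassGroup.mk0 J * ClassGroup.mk0 J') * (ClassGroup.mk0 I * ClassGroup.mk0 I) := by
          ac_rfl
      _ = ClassGroup.mk0 I * ClassGroup.mk0 I := by rw [h3, one_mul]

end FA.ClassEight
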